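import Fermat.Prelude.Def_FLTPrelim_FreyPackage
import Fermat.Prelude.Def_FLTPrelim_GaloisRep
import Fermat.Prelude.Def_FLTPrelim_Modularity
import Fermat.Prelude.Def_FLTPrelim_ModularRep
import Fermat.Prelude.Def_FLTPrelim_Ramification
import Fermat.Prelude.Def_FreyPackage_IsConductorLevel
import Fermat.Prelude.Def_WeierstrassCurve_Mlc1RowStatement

/-!
The inputs of the endgame for the Frey curve, in the shape of the milestone statements.
-/

set_option autoImplicit false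

open WeierstrassCurve WeierstrassCurve.Affine WeierstrassCurve.Affine.Point
open CuspForm ModularFormClass UpperHalfPlane
open FreyPackage
open scoped WeierstrassCurve.Affine

namespace Fermat.Agent.RT.Frey

/-- The proposition of milestone statement 43. -/
def LowerOddInput : Prop := ∀ (P : FreyPackage) {N q : ℕ} (_hcond : P.IsConductorLevel N)
  (_hq : q.Prime) (_hq2 : q ≠ 2) (_hqp : q ≠ P.p) (_hqN : q ∣ N)
  (_hirr : GaloisRepIsIrreducible (K := AlgebraicClosure ℚ) ℚ P.freyCurve P.p)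
  (_hmod : P.ModularRepOfLevel N) (_hunr : P.GaloisRepUnramifiedAt q),
  ∃ M : ℕ, M ∣ N ∧ ¬ q ∣ M ∧ P.ModularRepOfLevel M

/-- The proposition of milestone statement 44. -/
def LowerAtPInput : Prop := ∀ (P : FreyPackage) {N : ℕ} (_hcond : P.IsConductorLevel N)
  (_hpN : P.p ∣ N) (_hirr : GaloisRepIsIrreducible (K := AlgebraicClosure ℚ) ℚ P.freyCurve P.p)
  (_hmod : P.ModularRepOfLevel N),
  ∃ M : ℕ, M ∣ N ∧ ¬ P.p ∣ M ∧ P.ModularRepOfLevel M

/-- The proposition of milestone statement 59. -/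
def LiftingInput : Prop := ∀ (p : ℕ) (_hp : p = 3 ∨ p = 5)
  (W : WeierstrassCurve ℤ) (_hΔ : W.Δ ≠ 0) (_hW : W.IsSemistableModel)
  (_hirr : W.ModRepIsIrreducible p)
  (M₀ : ℕ) [NeZero M₀] (_hres₀ : W.IsResiduallyModularOfLevel p M₀)
  (_hM₀ : ¬ p ^ 2 ∣ M₀)
  (_hM₀3 : ∀ q : ℕ, q.Prime → q ≠ p → ¬ q ^ 3 ∣ M₀),
  Mlc1IsModularModelOfExactConductorLevel W

end Fermat.Agent.RT.Frey
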